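import Fermat.Agent.Torsion.X21Descent
import Mathlib.Data.Rat.Lemmas

/-!
# The descent for level `17`

`a² + e²` and `a² - 16e²` are both squares for coprime `a`, `e` only if `e = 0`; hence the rational
solutions of `w² = z (z + 1) (z - 16)` have `z ∈ {0, -1, 16}`.
-/

set_option autoImplicit false

namespace FA.Curve17

open FA.Torsion.X21 (four_numbers split_square coprime_combine triple_even_first not_both_dvd)

theorem prime_seventeen : Prime (17 : ℤ) := by norm_num [Int.prime_iff_natAbs_prime]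

theorem dvd_seventeen {κ : ℤ} (h : κ ∣ 17) : κ = 1 ∨ κ = -1 ∨ κ = 17 ∨ κ = -17 := by
  have h1 : κ.natAbs ∣ 17 := Int.natAbs_dvd_natAbs.2 h
  rcases (Nat.dvd_prime (by norm_num : Nat.Prime 17)).1 h1 with e | e <;> omega

theorem coprime_two {x : ℤ} (hx : Odd x) : IsCoprime 2 x := by
  obtain ⟨k, rfl⟩ := hx
  exact ⟨-k, 1, by ring⟩

theorem sq_mod_eight {x : ℤ} (hx : Odd x) : (x : ZMod 8) ^ 2 = 1 := by
  obtain ⟨k, rfl⟩ := hx
  have : ∀ t : ZMod 8, (2 * t + 1) ^ 2 = 1 := by decide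
  push_cast
  exact this _

/-- Pythagorean parameters, all three. -/
theorem triple {x y u : ℤ} (hxy : IsCoprime x y) (hx : Odd x) (hy : y ≠ 0)
    (h : x ^ 2 + y ^ 2 = u ^ 2) :
    ∃ r s ε σ : ℤ, (ε = 1 ∨ ε = -1) ∧ (σ = 1 ∨ σ = -1) ∧ IsCoprime r s ∧ Even r ∧ Odd s ∧
      x = ε * (r ^ 2 - s ^ 2) ∧ y = 2 * r * s ∧ u = σ * (r ^ 2 + s ^ 2) := by
  obtain ⟨r, s, ε, hε, hrs, hr, hs, hxr, hyr⟩ := triple_even_first hxy hx hy h
  have e : u ^ 2 = (r ^ 2 + s ^ 2) ^ 2 := by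
    rw [← h, hxr, hyr]; rcases hε with rfl | rfl <;> ring
  rcases sq_eq_sq_iff_eq_or_eq_neg.1 e with e | e
  · exact ⟨r, s, ε, 1, hε, Or.inl rfl, hrs, hr, hs, hxr, hyr, by rw [e, one_mul]⟩
  · exact ⟨r, s, ε, -1, hε, Or.inr rfl, hrs, hr, hs, hxr, hyr, by rw [e, neg_one_mul]⟩

/-- `a² - d²` and `16a² + d²` are never both squares for coprime `a` and odd `d`. -/
theorem no_twin {a d b c : ℤ} (had : IsCoprime a d) (hd : Odd d) (h1 : a ^ 2 - d ^ 2 = b ^ 2)
    (h2 : 16 * a ^ 2 + d ^ 2 = c ^ 2) : False := by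
  by_cases hb : b = 0
  · subst hb
    obtain ⟨k, rfl⟩ : (17 : ℤ) ∣ c := prime_seventeen.dvd_of_dvd_pow (n := 2)
      ⟨a ^ 2, by linarith⟩
    have hka : (17 : ℤ) ∣ a := prime_seventeen.dvd_of_dvd_pow (n := 2) ⟨k ^ 2, by linarith⟩
    exact not_both_dvd prime_seventeen had hka (prime_seventeen.dvd_of_dvd_pow (n := 2) (by
      rw [show d ^ 2 = a ^ 2 by linarith]; exact dvd_pow hka two_ne_zero))
  have ha : a ≠ 0 := by
    rintro rfl
    have := sq_pos_of_ne_zero hb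
    nlinarith [sq_nonneg d]
  have hdb : IsCoprime d b := by
    refine (IsCoprime.pow_iff (m := 2) (n := 2) two_pos two_pos).1 ?_
    have := (had.symm.pow (m := 2) (n := 2)).add_mul_left_right (-1)
    rwa [show a ^ 2 + d ^ 2 * -1 = b ^ 2 by linarith] at this
  obtain ⟨r, s, ε, σ, hε, hσ, hrs, hr, hs, hdr, -, har⟩ := triple hdb hd hb (u := a)
    (by linarith)
  have h4a : IsCoprime d (4 * a) := by
    refine IsCoprime.mul_right ?_ had.symm
    rw [show (4 : ℤ) = 2 * 2 by norm_num]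
    exact (coprime_two hd).symm.mul_right (coprime_two hd).symm
  obtain ⟨u, v, ε', -, hε', -, huv, hu, hv, hdu, hau, -⟩ := triple h4a hd
    (mul_ne_zero (by norm_num) ha) (u := c) (by linarith)
  -- `uv = ± 2 (r² + s²)` and `u² - v² = ± (r² - s²)`
  have hη : ε' * ε = 1 ∨ ε' * ε = -1 := by
    rcases hε with rfl | rfl <;> rcases hε' with rfl | rfl <;> simp
  have hodd : Odd (u + v) := hu.add_odd hv
  have hne : u + v ≠ 0 := by intro e; rw [e] at hodd; simp at hodd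
  obtain ⟨α, β, γ, δ, h₁, h₂, h₃, h₄, hβγ⟩ := four_numbers (r := u + v) (s := u - v) (p := r + s)
    (q := ε' * ε * (r - s)) hne (by
      have hd2 : ε' * ε' = 1 := by rcases hε' with rfl | rfl <;> norm_num
      linear_combination -ε' * hdu + ε' * hdr - (u ^ 2 - v ^ 2) * hd2)
  have oα : Odd α ∧ Odd γ := Int.odd_mul.1 (h₁ ▸ hodd)
  have oβ : Odd β ∧ Odd δ := Int.odd_mul.1 (h₂ ▸ hu.sub_odd hv)
  have hαδ : IsCoprime α δ := by
    have hcd : IsCoprime (u + v) (u - v) := by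
      obtain ⟨x, y, hxy⟩ := huv
      have h2c : IsCoprime (u + v) (2 : ℤ) := (coprime_two hodd).symm
      have : IsCoprime (u + v) u := ⟨y, x - y, by linear_combination hxy⟩
      have := (h2c.mul_right this).add_mul_left_right (-1)
      rwa [show 2 * u + (u + v) * -1 = u - v by ring] at this
    rw [h₁, h₂] at hcd
    exact hcd.of_mul_left_left.of_mul_right_right
  have hα : α ≠ 0 := by rintro rfl; simp at oα
  obtain ⟨κ, hB, hA⟩ := split_square (A := γ ^ 2 - 4 * σ * β ^ 2) (B := β ^ 2 + 4 * σ * γ ^ 2) hα hαδ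
    (by
      have e1 : (u + v) ^ 2 - (u - v) ^ 2 = 4 * σ * ((r + s) ^ 2 + (ε' * ε * (r - s)) ^ 2) := by
        have hη2 : (ε' * ε) ^ 2 = 1 := by rcases hη with e | e <;> rw [e] <;> norm_num
        rw [mul_pow, hη2]
        linear_combination -2 * hau + 8 * har
      rw [h₁, h₂, h₃, h₄] at e1
      linear_combination e1)
  have hσ2 : σ * σ = 1 := by rcases hσ with rfl | rfl <;> norm_num
  have hκ : κ ∣ 17 := coprime_combine hβγ
    ⟨α ^ 2 - 4 * σ * δ ^ 2, by linear_combination hB - 4 * σ * hA - 16 * β ^ 2 * hσ2⟩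
    ⟨δ ^ 2 + 4 * σ * α ^ 2, by linear_combination hA + 4 * σ * hB - 16 * γ ^ 2 * hσ2⟩
  have h8 := congrArg (fun z : ℤ => (z : ZMod 8)) hA
  push_cast at h8
  rw [sq_mod_eight oα.2, sq_mod_eight oβ.1, sq_mod_eight oβ.2] at h8
  rcases hσ with rfl | rfl <;> rcases dvd_seventeen hκ with rfl | rfl | rfl | rfl <;>
    · revert h8; decide

/-- `a² + e²` and `a² - 16e²` are both squares only if `e = 0` (`a`, `e` coprime). -/
theorem concordant {a e b c : ℤ} (hae : IsCoprime a e) (h1 : a ^ 2 + e ^ 2 = b ^ 2)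
    (h2 : a ^ 2 - 16 * e ^ 2 = c ^ 2) : e = 0 := by
  induction hn : a.natAbs using Nat.strong_induction_on generalizing a e b c with
  | _ N ih =>
  subst hn
  by_contra he
  rcases Int.even_or_odd a with hae2 | hao
  · -- `a = 4 a'`
    have heo : Odd e := Int.not_even_iff_odd.1 fun h =>
      not_both_dvd Int.prime_two hae hae2.two_dvd h.two_dvd
    obtain ⟨r, s, ε, σ, -, -, -, hr, -, -, hyr, -⟩ := triple hae.symm heo (u := b)
      (fun h => by
        rw [h] at h2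
        have := sq_pos_of_ne_zero he
        nlinarith [sq_nonneg c]) (by linarith)
    obtain ⟨r', rfl⟩ := hr
    obtain ⟨a', rfl⟩ : (4 : ℤ) ∣ a := ⟨r' * s, by rw [hyr]; ring⟩
    obtain ⟨c', rfl⟩ : (4 : ℤ) ∣ c := (Int.pow_dvd_pow_iff two_ne_zero).1
      ⟨a' ^ 2 - e ^ 2, by linarith⟩
    exact no_twin hae.of_mul_left_right heo (b := c') (c := b) (by linarith) (by linarith)
  obtain ⟨u, v, ε, -, hε, -, huv, hu, hv, hau, heu, -⟩ := triple hae hao he h1
  have hc : Odd c := (Int.odd_pow' two_ne_zero).1 (h2 ▸ (hao.pow).sub_even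
    ⟨8 * e ^ 2, by ring⟩)
  have hce : IsCoprime c (4 * e) := by
    refine IsCoprime.mul_right ?_ ?_
    · rw [show (4 : ℤ) = 2 * 2 by norm_num]
      exact (coprime_two hc).symm.mul_right (coprime_two hc).symm
    · refine (IsCoprime.pow_iff (m := 2) (n := 2) two_pos two_pos).1 ?_
      have := (hae.symm.pow (m := 2) (n := 2)).add_mul_left_right (-16)
      rw [show a ^ 2 + e ^ 2 * -16 = c ^ 2 by linarith] at this
      exact this.symm
  obtain ⟨r, s, -, σ, -, hσ, hrs, hr, hs, -, her, har⟩ := triple hce hc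
    (mul_ne_zero (by norm_num) he) (u := a) (by linarith)
  have e4 : r * s = 4 * (u * v) := by rw [heu] at her; linarith
  obtain ⟨r', rfl⟩ : (4 : ℤ) ∣ r := by
    refine IsCoprime.dvd_of_dvd_mul_right ?_ ⟨u * v, e4⟩
    rw [show (4 : ℤ) = 2 * 2 by norm_num]
    exact (coprime_two hs).mul_left (coprime_two hs)
  have hr0 : r' ≠ 0 := by
    rintro rfl
    rw [mul_zero] at her
    omega
  obtain ⟨α, β, γ, δ, rfl, rfl, rfl, rfl, hβγ⟩ := four_numbers (r := r') (s := s) (p := u) (q := v)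
    hr0 (by linarith)
  obtain ⟨hγo, hδo⟩ := Int.odd_mul.1 hv
  obtain ⟨hβo, -⟩ := Int.odd_mul.1 hs
  have hα : α ≠ 0 := left_ne_zero_of_mul hr0
  have hγ : γ ≠ 0 := right_ne_zero_of_mul hr0
  have hδ : δ ≠ 0 := by rintro rfl; simp at hδo
  have hαδ : IsCoprime α δ := hrs.of_mul_left_right.of_mul_left_left.of_mul_right_right
  -- the sign
  have hη : ε * σ = -1 := by
    have hu4 : 4 ∣ (α * β) ^ 2 := by
      obtain ⟨k, hk⟩ := hu
      exact ⟨k ^ 2, by rw [hk]; ring⟩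
    obtain ⟨k, hk⟩ := hu4
    obtain ⟨i, hi⟩ := hv
    obtain ⟨j, hj⟩ := hs
    have e1 : ε * (4 * k - (2 * i + 1) ^ 2) = σ * ((4 * (α * γ)) ^ 2 + (2 * j + 1) ^ 2) := by
      rw [← hk, ← hi, ← hj, ← hau, har]
    rcases hε with rfl | rfl <;> rcases hσ with rfl | rfl <;> try norm_num
    all_goals
      exfalso
      ring_nf at e1
      omega
  have hee : ε * ε = 1 := by rcases hε with rfl | rfl <;> norm_num
  obtain ⟨κ, hB, hA⟩ := split_square (A := β ^ 2 + 16 * γ ^ 2) (B := γ ^ 2 - β ^ 2) hα hαδ (by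
    have e1 := hau.symm.trans har
    linear_combination ε * e1 - (α ^ 2 * β ^ 2 - γ ^ 2 * δ ^ 2) * hee +
      ((4 * (α * γ)) ^ 2 + (β * δ) ^ 2) * hη)
  have hκ : κ ∣ 17 := coprime_combine hβγ
    ⟨δ ^ 2 - 16 * α ^ 2, by linear_combination hA - 16 * hB⟩
    ⟨α ^ 2 + δ ^ 2, by linear_combination hA + hB⟩
  have hpos : 0 < κ := by
    have : 0 < κ * δ ^ 2 := by
      rw [← hA]
      have := sq_pos_of_ne_zero hγ
      positivity
    exact pos_of_mul_pos_left this (sq_nonneg δ)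
  rcases dvd_seventeen hκ with rfl | rfl | rfl | rfl <;> try omega
  · exact no_twin (a := γ) (d := β) hβγ.symm hβo (b := α) (c := δ) (by linarith) (by linarith)
  · refine hα (ih δ.natAbs ?_ (a := δ) (e := α) hαδ.symm (b := γ) (c := β) (by linarith)
      (by linarith) rfl)
    have habs : |a| = (4 * (α * γ)) ^ 2 + (β * δ) ^ 2 := by
      rw [har]
      have h0 : (0 : ℤ) ≤ (4 * (α * γ)) ^ 2 + (β * δ) ^ 2 := by positivity
      rcases hσ with rfl | rfl
      · rw [one_mul, abs_of_nonneg h0]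
      · rw [neg_one_mul, abs_neg, abs_of_nonneg h0]
    have hβ : β ≠ 0 := by rintro rfl; simp at hβo
    have h3 := sq_pos_of_ne_zero (mul_ne_zero hα hγ)
    have h4 : (1 : ℤ) ≤ β ^ 2 := sq_pos_of_ne_zero hβ
    have h5 : |δ| ≤ δ ^ 2 := by
      rw [← sq_abs]; exact le_self_pow₀ (Int.one_le_abs hδ) two_ne_zero
    have h6 : δ ^ 2 ≤ (β * δ) ^ 2 := by rw [mul_pow]; exact le_mul_of_one_le_left (sq_nonneg δ) h4
    have : |δ| < |a| := by nlinarith
    rw [Int.abs_eq_natAbs, Int.abs_eq_natAbs] at this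
    exact_mod_cast this

/-- The factors of a square whose common divisors divide a power of `p`. -/
theorem sq_or_prime_mul_sq {p : ℤ} (hp : Prime p) : ∀ n : ℕ, ∀ x y z : ℤ, x.natAbs ≤ n → x ≠ 0 →
    x * y = z ^ 2 → (∀ q : ℤ, Prime q → q ∣ x → q ∣ y → q ∣ p) →
    ∃ r : ℤ, x = r ^ 2 ∨ x = -r ^ 2 ∨ x = p * r ^ 2 ∨ x = -(p * r ^ 2) := by
  intro n
  induction n using Nat.strong_induction_on with
  | _ n ih =>
  intro x y z hn hx h hg
  by_cases hpx : p ∣ x
  swap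
  · have hco : IsCoprime x y := isCoprime_of_prime_dvd (fun e => hx e.1) fun q hq h1 h2 =>
      hpx ((hq.associated_of_dvd hp (hg q hq h1 h2)).symm.dvd.trans h1)
    obtain ⟨r, hr | hr⟩ := Int.sq_of_isCoprime hco h
    · exact ⟨r, Or.inl hr⟩
    · exact ⟨r, Or.inr (Or.inl hr)⟩
  obtain ⟨x', rfl⟩ := hpx
  have hx' : x' ≠ 0 := right_ne_zero_of_mul hx
  by_cases hpx' : p ∣ x'
  · obtain ⟨x'', rfl⟩ := hpx'
    obtain ⟨z', rfl⟩ : p ∣ z := hp.dvd_of_dvd_pow (n := 2) ⟨p * x'' * y, by rw [← h]; ring⟩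
    have h' : x'' * y = z' ^ 2 := mul_left_cancel₀ (pow_ne_zero 2 hp.ne_zero)
      (by linear_combination h)
    have hlt : x''.natAbs < n := by
      rw [Int.natAbs_mul, Int.natAbs_mul] at hn
      have h2 : 2 ≤ p.natAbs := (Int.prime_iff_natAbs_prime.1 hp).two_le
      have : 0 < x''.natAbs := Int.natAbs_pos.2 (right_ne_zero_of_mul hx')
      have : 2 * x''.natAbs ≤ p.natAbs * x''.natAbs := Nat.mul_le_mul_right _ h2
      nlinarith
    obtain ⟨r, hr⟩ := ih _ hlt x'' y z' le_rfl (right_ne_zero_of_mul hx') h' fun q hq h1 h2 =>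
      hg q hq ((h1.mul_left p).mul_left p) h2
    refine ⟨p * r, ?_⟩
    rcases hr with rfl | rfl | rfl | rfl
    · exact Or.inl (by ring)
    · exact Or.inr (Or.inl (by ring))
    · exact Or.inr (Or.inr (Or.inl (by ring)))
    · exact Or.inr (Or.inr (Or.inr (by ring)))
  · have hco : IsCoprime x' (p * y) := (hp.coprime_iff_not_dvd.2 hpx').symm.mul_right
      (isCoprime_of_prime_dvd (fun e => hx' e.1) fun q hq h1 h2 =>
        hpx' ((hq.associated_of_dvd hp (hg q hq (h1.mul_left p) h2)).symm.dvd.trans h1))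
    obtain ⟨r, hr | hr⟩ := Int.sq_of_isCoprime hco (c := z) (by rw [← h]; ring)
    · exact ⟨r, Or.inr (Or.inr (Or.inl (by rw [hr])))⟩
    · exact ⟨r, Or.inr (Or.inr (Or.inr (by rw [hr]; ring)))⟩

/-- The integral points with `z > 16`. -/
theorem no_large {m n w : ℤ} (hco : IsCoprime m n) (hn : 0 < n) (hm : 16 * n < m)
    (h : m * (m + n) * (m - 16 * n) * n = w ^ 2) : False := by
  have hm0 : 0 < m := by linarith
  obtain ⟨e, rfl⟩ : ∃ e, n = e ^ 2 := by
    have c1 : IsCoprime n (m * (m + n) * (m - 16 * n)) := by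
      refine (hco.symm.mul_right ?_).mul_right ?_
      · simpa using hco.symm.add_mul_left_right 1
      · have := hco.symm.add_mul_left_right (-16)
        rwa [show m + n * -16 = m - 16 * n by ring] at this
    obtain ⟨e, he | he⟩ := Int.sq_of_isCoprime c1 (c := w) (by rw [← h]; ring)
    · exact ⟨e, he⟩
    · nlinarith [sq_nonneg e]
  have he : e ≠ 0 := by rintro rfl; simp at hn
  obtain ⟨w', hw'⟩ : e ∣ w := (Int.pow_dvd_pow_iff two_ne_zero).1
    ⟨m * (m + e ^ 2) * (m - 16 * e ^ 2), by rw [← h]; ring⟩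
  have h' : m * (m + e ^ 2) * (m - 16 * e ^ 2) = w' ^ 2 := mul_left_cancel₀ (pow_ne_zero 2 he)
    (by rw [← mul_pow, ← hw', ← h]; ring)
  have hco' : IsCoprime m e := (IsCoprime.pow_right_iff two_pos).1 hco
  have hpos : 0 < m + e ^ 2 := by positivity
  have hgcd : ∀ {q : ℤ}, Prime q → q ∣ m → q ∣ m + e ^ 2 → False := fun hq h1 h2 =>
    not_both_dvd hq hco h1 ((dvd_add_right h1).1 h2)
  obtain ⟨a, hmrep⟩ : ∃ a, m = a ^ 2 ∨ m = 2 * a ^ 2 := by
    obtain ⟨a, ha | ha | ha | ha⟩ := sq_or_prime_mul_sq Int.prime_two _ m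
      ((m + e ^ 2) * (m - 16 * e ^ 2)) w' le_rfl hm0.ne' (by rw [← h']; ring) fun q hq h1 h2 => by
        rcases hq.dvd_or_dvd h2 with h3 | h3
        · exact (hgcd hq h1 h3).elim
        · have : q ∣ 2 ^ 4 * e ^ 2 := by simpa using dvd_sub h1 h3
          exact (hq.dvd_or_dvd this).elim hq.dvd_of_dvd_pow fun h4 =>
            (not_both_dvd hq hco h1 h4).elim
    · exact ⟨a, Or.inl ha⟩
    · exfalso; nlinarith [sq_nonneg a]
    · exact ⟨a, Or.inr ha⟩
    · exfalso; nlinarith [sq_nonneg a]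
  obtain ⟨b, hbrep⟩ : ∃ b, m + e ^ 2 = b ^ 2 ∨ m + e ^ 2 = 17 * b ^ 2 := by
    obtain ⟨b, hb | hb | hb | hb⟩ := sq_or_prime_mul_sq prime_seventeen _ (m + e ^ 2)
      (m * (m - 16 * e ^ 2)) w' le_rfl hpos.ne' (by rw [← h']; ring) fun q hq h1 h2 => by
        rcases hq.dvd_or_dvd h2 with h3 | h3
        · exact (hgcd hq h3 h1).elim
        · have : q ∣ 17 * e ^ 2 := by
            have := dvd_sub h1 h3
            rwa [show m + e ^ 2 - (m - 16 * e ^ 2) = 17 * e ^ 2 by ring] at this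
          exact (hq.dvd_or_dvd this).elim id fun h4 =>
            (not_both_dvd hq hco ((dvd_add_left h4).1 h1) h4).elim
    · exact ⟨b, Or.inl hb⟩
    · exfalso; nlinarith [sq_nonneg b]
    · exact ⟨b, Or.inr hb⟩
    · exfalso; nlinarith [sq_nonneg b]
  rcases hmrep with rfl | rfl
  swap
  · -- `m = 2 a²`
    have ha : a ≠ 0 := by rintro rfl; simp at hm0
    obtain ⟨k, hk⟩ : Odd e := Int.not_even_iff_odd.1 fun hev =>
      not_both_dvd Int.prime_two hco' (dvd_mul_right 2 _) hev.two_dvd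
    obtain ⟨w'', rfl⟩ : 2 * a ∣ w' := (Int.pow_dvd_pow_iff two_ne_zero).1
      ⟨(2 * a ^ 2 + e ^ 2) * (a ^ 2 - 8 * e ^ 2), by rw [← h']; ring⟩
    have key : ∀ x k z : ZMod 32,
        (2 * x ^ 2 + (2 * k + 1) ^ 2) * (x ^ 2 - 8 * (2 * k + 1) ^ 2) ≠ z ^ 2 := by decide +kernel
    refine key a k w'' ?_
    have : (2 * a ^ 2 + e ^ 2) * (a ^ 2 - 8 * e ^ 2) = w'' ^ 2 :=
      mul_left_cancel₀ (pow_ne_zero 2 (mul_ne_zero two_ne_zero ha)) (by linear_combination h')
    rw [hk] at this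
    exact_mod_cast congrArg (Int.cast : ℤ → ZMod 32) this
  -- `m = a²`
  have ha : a ≠ 0 := by rintro rfl; simp at hm0
  have hae : IsCoprime a e := (IsCoprime.pow_left_iff two_pos).1 hco'
  rcases hbrep with hb | hb
  · obtain ⟨c, hc⟩ : a * b ∣ w' := (Int.pow_dvd_pow_iff two_ne_zero).1
      ⟨a ^ 2 - 16 * e ^ 2, by rw [← h', hb]; ring⟩
    have hb0 : b ≠ 0 := by rintro rfl; linarith
    exact he (concordant hae hb (c := c) (mul_left_cancel₀
      (mul_ne_zero (pow_ne_zero 2 ha) (pow_ne_zero 2 hb0))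
      (by rw [hc, hb] at h'; linear_combination h')))
  have hb0 : b ≠ 0 := by rintro rfl; linarith
  obtain ⟨c₀, hc₀⟩ : a * b ∣ w' := (Int.pow_dvd_pow_iff two_ne_zero).1
    ⟨17 * (a ^ 2 - 16 * e ^ 2), by rw [← h', hb]; ring⟩
  have h17 : 17 * (a ^ 2 - 16 * e ^ 2) = c₀ ^ 2 := mul_left_cancel₀
    (mul_ne_zero (pow_ne_zero 2 ha) (pow_ne_zero 2 hb0))
    (by rw [hc₀, hb] at h'; linear_combination h')
  obtain ⟨c, rfl⟩ : (17 : ℤ) ∣ c₀ := prime_seventeen.dvd_of_dvd_pow (n := 2) ⟨_, h17.symm⟩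
  have hc : a ^ 2 - 16 * e ^ 2 = 17 * c ^ 2 := mul_left_cancel₀ prime_seventeen.ne_zero
    (by rw [h17]; ring)
  have hbc : IsCoprime b c := by
    refine isCoprime_of_prime_dvd (fun h0 => hb0 h0.1) fun q hq h1 h2 => ?_
    exact not_both_dvd hq hae
      (hq.dvd_of_dvd_pow (n := 2) (by
        rw [show a ^ 2 = 16 * b ^ 2 + c ^ 2 by linarith]
        exact dvd_add (dvd_mul_of_dvd_right (dvd_pow h1 two_ne_zero) _) (dvd_pow h2 two_ne_zero)))
      (hq.dvd_of_dvd_pow (n := 2) (by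
        rw [show e ^ 2 = b ^ 2 - c ^ 2 by linarith]
        exact dvd_sub (dvd_pow h1 two_ne_zero) (dvd_pow h2 two_ne_zero)))
  rcases Int.even_or_odd a with hev | hodd
  · -- `a = 4 A`, `c = 4 C`
    have heo : Odd e := Int.not_even_iff_odd.1 fun h =>
      not_both_dvd Int.prime_two hae hev.two_dvd h.two_dvd
    obtain ⟨a₁, rfl⟩ := hev.two_dvd
    obtain ⟨c₁, rfl⟩ : (2 : ℤ) ∣ c := by
      have h2 : (2 : ℤ) ∣ 17 * c ^ 2 := ⟨2 * a₁ ^ 2 - 8 * e ^ 2, by linarith⟩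
      exact Int.prime_two.dvd_of_dvd_pow ((Int.prime_two.dvd_mul.1 h2).resolve_left (by decide))
    obtain ⟨k, hk⟩ := heo
    have key : ∀ x y k : ZMod 8, x ^ 2 - 4 * (2 * k + 1) ^ 2 = 17 * y ^ 2 → 2 ∣ y.val := by decide
    have hc2 : (2 : ℤ) ∣ c₁ := by
      have e1 : a₁ ^ 2 - 4 * (2 * k + 1) ^ 2 = 17 * c₁ ^ 2 := by rw [← hk]; linarith
      have e2 := key (a₁ : ZMod 8) (c₁ : ZMod 8) (k : ZMod 8) (by exact_mod_cast congrArg (Int.cast : ℤ → ZMod 8) e1)
      have := ZMod.val_intCast (n := 8) c₁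
      omega
    obtain ⟨C, rfl⟩ := hc2
    obtain ⟨A, rfl⟩ : (2 : ℤ) ∣ a₁ :=
      Int.prime_two.dvd_of_dvd_pow (n := 2) ⟨34 * C ^ 2 + 2 * e ^ 2, by linarith⟩
    have hC : C = 0 := concordant hbc.of_mul_right_right.of_mul_right_right
      (b := A) (c := e) (by linarith) (by linarith)
    subst hC
    linarith
  · have hcodd : Odd c := by
      refine Int.not_even_iff_odd.1 fun hev => Int.not_even_iff_odd.2 hodd ?_
      refine even_iff_two_dvd.2 (Int.prime_two.dvd_of_dvd_pow (n := 2) ?_)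
      rw [show a ^ 2 = 17 * c ^ 2 + 16 * e ^ 2 by linarith]
      exact dvd_add (dvd_mul_of_dvd_right (dvd_pow hev.two_dvd two_ne_zero) _)
        (dvd_mul_of_dvd_left (by norm_num) _)
    exact no_twin hbc hcodd (b := e) (c := a) (by linarith) (by linarith)

end FA.Curve17
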