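import Fermat.Agent.Curve17.Descent
import Fermat.Agent.Curve11.LevelsFourteenFifteen

/-!
# Mordell–Weil groups at levels `17` and `21`

`17a2 : y² + xy + y = x³ - x² - 6x - 4` is `w² = z (z + 1) (z - 16)` for `z = 4x + 4`, and
`21a1 : y² + xy = x³ - 4x - 1` is the quartic `w² = A⁴ - 6A³ - 17A² - 6A + 1` of `X₀(21)` for
`A = (y + 2x + 3) / (x - 5)`; the rational points are the known four, respectively eight.
-/

set_option autoImplicit false
set_option linter.style.haveILetI false

noncomputable section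

open WeierstrassCurve
open FA.Torsion (twoHom twoHom_injective)

namespace FA.Curve17

/-- The rational solutions of `w² = z (z + 1) (z - 16)`. -/
theorem roots {z w : ℚ} (h : w ^ 2 = z * (z + 1) * (z - 16)) : z = 0 ∨ z = -1 ∨ z = 16 := by
  suffices large : ∀ z w : ℚ, 16 < z → w ^ 2 ≠ z * (z + 1) * (z - 16) by
    by_contra! hne
    obtain ⟨h0, h1, h16⟩ := hne
    rcases lt_or_gt_of_ne h16 with hlt | hgt
    · have hprod : 0 ≤ z * (z + 1) * (z - 16) := h ▸ sq_nonneg w
      have hz : z < 0 := by
        rcases lt_or_gt_of_ne h0 with hz | hz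
        · exact hz
        · nlinarith [mul_pos (mul_pos hz (by linarith : 0 < z + 1)) (sub_pos.2 hlt)]
      have hz1 : -1 < z := by
        rcases lt_or_gt_of_ne h1 with hz1 | hz1
        · nlinarith [mul_pos (mul_pos (neg_pos.2 hz) (by linarith : 0 < -(z + 1)))
            (sub_pos.2 hlt)]
        · exact hz1
      refine large (-16 / z) (16 * w / z ^ 2) ?_ ?_
      · rw [lt_div_iff_of_neg hz]; linarith
      · field_simp
        linear_combination h
    · exact large z w hgt h
  intro z w hz h
  have hd : (0 : ℚ) < z.den := by exact_mod_cast z.den_pos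
  have hnd : (z.num : ℚ) = z * z.den := (Rat.mul_den_eq_num z).symm
  obtain ⟨v, hv⟩ : IsSquare (z.num * (z.num + z.den) * (z.num - 16 * z.den) * z.den) := by
    refine Rat.isSquare_intCast_iff.1 ⟨w * (z.den : ℚ) ^ 2, ?_⟩
    push_cast
    rw [hnd]
    linear_combination -((z.den : ℚ) ^ 4) * h
  refine no_large (Int.isCoprime_iff_gcd_eq_one.2 (by
    rw [Int.gcd, Int.natAbs_natCast]; exact z.reduced)) (by exact_mod_cast z.den_pos) ?_
    (hv.trans (sq v).symm)
  have : (16 : ℚ) * z.den < z.num := by rw [hnd]; exact mul_lt_mul_of_pos_right hz hd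
  exact_mod_cast this

/-- The rational solutions of `17a2`. -/
theorem points_seventeen {x y : ℚ} (h : y ^ 2 + x * y + y = x ^ 3 - x ^ 2 - 6 * x - 4) :
    (x, y) ∈ ({(-1, 0), (3, -2), (-5 / 4, 1 / 8)} : Finset (ℚ × ℚ)) := by
  simp only [Finset.mem_insert, Finset.mem_singleton, Prod.mk.injEq]
  have hw : (4 * (2 * y + x + 1)) ^ 2 = (4 * x + 4) * (4 * x + 4 + 1) * (4 * x + 4 - 16) := by
    linear_combination 64 * h
  rcases roots hw with e | e | e
  · obtain rfl : x = -1 := by linarith
    exact Or.inl ⟨rfl, by simpa using show y ^ 2 = 0 by linear_combination h⟩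
  · obtain rfl : x = -5 / 4 := by linarith
    have : (y - 1 / 8) ^ 2 = 0 := by linear_combination h
    exact Or.inr (Or.inr ⟨rfl, sub_eq_zero.1 (sq_eq_zero_iff.1 this)⟩)
  · obtain rfl : x = 3 := by linarith
    have : (y + 2) ^ 2 = 0 := by linear_combination h
    exact Or.inr (Or.inl ⟨rfl, eq_neg_of_add_eq_zero_left (sq_eq_zero_iff.1 this)⟩)

/-- The rational solutions of `21a1`. -/
theorem points_twentyOne {x y : ℚ} (h : y ^ 2 + x * y = x ^ 3 - 4 * x - 1) :
    (x, y) ∈ ({(5, 8), (5, -13), (-1, -1), (-2, 1), (2, -1), (-1, 2), (-1 / 4, 1 / 8)} :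
      Finset (ℚ × ℚ)) := by
  simp only [Finset.mem_insert, Finset.mem_singleton, Prod.mk.injEq]
  by_cases hx : x = 5
  · subst hx
    have : (y - 8) * (y + 13) = 0 := by linear_combination h
    rcases mul_eq_zero.1 this with e | e
    · exact Or.inl ⟨rfl, by linarith⟩
    · exact Or.inr (Or.inl ⟨rfl, by linarith⟩)
  have hx5 : x - 5 ≠ 0 := sub_ne_zero.2 hx
  set A := (y + 2 * x + 3) / (x - 5) with hA
  have hAD : A * (x - 5) = y + 2 * x + 3 := div_mul_cancel₀ _ hx5
  have hnd : (A.num : ℚ) = A * A.den := (Rat.mul_den_eq_num A).symm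
  obtain ⟨v, hv⟩ : IsSquare (A.num ^ 4 - 6 * A.num ^ 3 * A.den - 17 * A.num ^ 2 * (A.den : ℤ) ^ 2 -
      6 * A.num * (A.den : ℤ) ^ 3 + (A.den : ℤ) ^ 4) := by
    refine Rat.isSquare_intCast_iff.1 ⟨(2 * x + 3 - A ^ 2 + 3 * A) * (A.den : ℚ) ^ 2, ?_⟩
    push_cast
    rw [hnd]
    have key : A ^ 4 - 6 * A ^ 3 - 17 * A ^ 2 - 6 * A + 1 = (2 * x + 3 - A ^ 2 + 3 * A) ^ 2 := by
      have hy : y = A * (x - 5) - 2 * x - 3 := by linarith
      rw [hy] at h
      refine mul_left_cancel₀ hx5 ?_
      linear_combination 4 * h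
    linear_combination (A.den : ℚ) ^ 4 * key
  rcases FA.Torsion.X21.descent (Int.isCoprime_iff_gcd_eq_one.2 (by
      rw [Int.gcd, Int.natAbs_natCast]; exact A.reduced)) (hv.trans (sq v).symm)
    with e | e
  · have hA0 : A = 0 :=
      Rat.num_eq_zero.1 ((mul_eq_zero.1 e).resolve_right (by exact_mod_cast A.den_ne_zero))
    rw [hA0, zero_mul] at hAD
    obtain rfl : y = -2 * x - 3 := by linarith
    have : (x + 1) * (x + 2) = 0 := mul_left_cancel₀ hx5 (by linear_combination -h)
    rcases mul_eq_zero.1 this with ex | ex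
    · obtain rfl : x = -1 := by linarith
      norm_num
    · obtain rfl : x = -2 := by linarith
      norm_num
  · have hdd : A.den ∣ 2 := Int.natCast_dvd_natCast.1 ⟨-A.num, by push_cast; linarith⟩
    rcases (Nat.dvd_prime Nat.prime_two).1 hdd with ed | ed <;> rw [ed] at e hnd
    · rw [show A.num = -2 by simpa using e] at hnd
      rw [show A = -2 by simpa using hnd.symm] at hAD
      obtain rfl : y = 7 - 4 * x := by linarith
      obtain rfl : x = 2 := by
        have : (x - 5) * (x - 2) = 0 := mul_left_cancel₀ hx5 (by linear_combination -h)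
        rcases mul_eq_zero.1 this with ex | ex
        · exact absurd ex hx5
        · linarith
      norm_num
    · rw [show A.num = -1 by push_cast at e; linarith] at hnd
      rw [show A = -1 / 2 by push_cast at hnd; linarith] at hAD
      obtain rfl : y = (-1 - 5 * x) / 2 := by linarith
      have : (x + 1) * (4 * x + 1) = 0 := mul_left_cancel₀ hx5 (by linear_combination -4 * h)
      rcases mul_eq_zero.1 this with ex | ex
      · obtain rfl : x = -1 := by linarith
        norm_num
      · obtain rfl : x = -1 / 4 := by linarith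
        norm_num

/-- `17a2`. -/
abbrev curveSeventeen : WeierstrassCurve ℚ := ⟨1, -1, 1, -6, -4⟩

/-- `21a1`. -/
abbrev curveTwentyOne : WeierstrassCurve ℚ := ⟨1, 0, 0, -4, -1⟩

/-- The point `(-1, 0)` of `17a2`. -/
def leftSeventeen : curveSeventeen.toAffine.Point :=
  .some (-1) 0 (by rw [Affine.nonsingular_iff, Affine.equation_iff]; norm_num)

/-- The point `(3, -2)` of `17a2`. -/
def rightSeventeen : curveSeventeen.toAffine.Point :=
  .some 3 (-2) (by rw [Affine.nonsingular_iff, Affine.equation_iff]; norm_num)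

/-- The point `(-2, 1)` of `21a1`. -/
def twoTwentyOne : curveTwentyOne.toAffine.Point :=
  .some (-2) 1 (by rw [Affine.nonsingular_iff, Affine.equation_iff]; norm_num)

/-- The point `(5, 8)` of `21a1`. -/
def genTwentyOne : curveTwentyOne.toAffine.Point :=
  .some 5 8 (by rw [Affine.nonsingular_iff, Affine.equation_iff]; norm_num)

theorem two_smul_leftSeventeen : 2 • leftSeventeen = 0 := by decide +kernel

theorem two_smul_rightSeventeen : 2 • rightSeventeen = 0 := by decide +kernel

theorem seventeen_order : ∀ j k : Fin 2,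
    (j : ℕ) • leftSeventeen + (k : ℕ) • rightSeventeen = 0 → (j : ℕ) = 0 ∧ (k : ℕ) = 0 := by
  decide +kernel

theorem two_smul_twoTwentyOne : 2 • twoTwentyOne = 0 := by decide +kernel

theorem four_smul_genTwentyOne : 4 • genTwentyOne = 0 := by decide +kernel

theorem twentyOne_order : ∀ j : Fin 2, ∀ k : Fin 4,
    (j : ℕ) • twoTwentyOne + (k : ℕ) • genTwentyOne = 0 → (j : ℕ) = 0 ∧ (k : ℕ) = 0 := by
  decide +kernel

end FA.Curve17

namespace FA.Summary

open FA.Curve17
open FA.Curve11 (equiv_of_list)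

/-- **The Mordell–Weil group of `17a2`** is `ℤ/2 × ℤ/2`. -/
theorem point_group_curve17 :
    Nonempty ((⟨1, -1, 1, -6, -4⟩ : WeierstrassCurve ℚ).toAffine.Point ≃+ ZMod 2 × ZMod 2) :=
  equiv_of_list (twoHom leftSeventeen rightSeventeen two_smul_leftSeventeen two_smul_rightSeventeen)
    (twoHom_injective _ _ seventeen_order) _
    (fun x y h => points_seventeen (by
      rw [Affine.equation_iff] at h; linear_combination h))
    (by rw [Nat.card_prod, Nat.card_zmod]; decide +kernel)

/-- **The Mordell–Weil group of `21a1`** is `ℤ/2 × ℤ/4`. -/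
theorem point_group_curve21 :
    Nonempty ((⟨1, 0, 0, -4, -1⟩ : WeierstrassCurve ℚ).toAffine.Point ≃+ ZMod 2 × ZMod 4) :=
  equiv_of_list (twoHom twoTwentyOne genTwentyOne two_smul_twoTwentyOne four_smul_genTwentyOne)
    (twoHom_injective _ _ twentyOne_order) _
    (fun x y h => points_twentyOne (by
      rw [Affine.equation_iff] at h; linear_combination h))
    (by rw [Nat.card_prod, Nat.card_zmod, Nat.card_zmod]; decide +kernel)

end FA.Summary

end
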